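import Mathlib

/-!
# S26 / BETA / CENTER, core (helper178) — Mathlib only

Existence part of the valuative criterion in "centre" form:
on an integral scheme `X` proper over a field `K`, every valuation subring `O` of the function
field which contains the constants contains the local ring of some point of `X`.

`exists_center` is stated with the structure map `K → K(X)` unfolded
(`(ΓSpecIso K).inv ≫ str.appTop ≫ germ ⊤ η`), so that it is literally
`Fermat.Agent.S26.Beta.CenterStatement K` after unfolding `ffStr`.
-/

set_option autoImplicit false
universe u

open CategoryTheory CategoryTheory.Limits AlgebraicGeometry TopologicalSpace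

namespace Fermat.Agent.S26.Beta.H178

noncomputable section

variable {X : Scheme.{u}}

/-- A morphism `l : Spec O ⟶ X` from a local ring whose generic fibre is the generic point of
`X`: the local ring at the image of the closed point maps into `O` compatibly with the function
field. -/
theorem stalk_le_of_lift [IsIntegral X] (O : ValuationSubring X.functionField)
    (l : Spec (CommRingCat.of O) ⟶ X)
    (hl : Spec.map (CommRingCat.ofHom (algebraMap O X.functionField)) ≫ l =
      X.fromSpecStalk (genericPoint X)) :
    ∀ f : X.presheaf.stalk (l (IsLocalRing.closedPoint O)),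
      algebraMap (X.presheaf.stalk (l (IsLocalRing.closedPoint O))) X.functionField f ∈ O := by
  set x : X := l (IsLocalRing.closedPoint O) with hx
  have hspec : genericPoint X ⤳ x := (genericPoint_spec X).specializes trivial
  -- the local homomorphism `φ : O_{X,x} ⟶ O`
  let φ : X.presheaf.stalk x ⟶ CommRingCat.of O := Scheme.stalkClosedPointTo l
  have h1 : Spec.map φ ≫ X.fromSpecStalk x = l := Scheme.Spec_stalkClosedPointTo_fromSpecStalk l
  have h2 : Spec.map (X.presheaf.stalkSpecializes hspec) ≫ X.fromSpecStalk x =
      X.fromSpecStalk (genericPoint X) := Scheme.SpecMap_stalkSpecializes_fromSpecStalk hspec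
  have h3 : Spec.map (φ ≫ CommRingCat.ofHom (algebraMap O X.functionField)) ≫
      X.fromSpecStalk x = Spec.map (X.presheaf.stalkSpecializes hspec) ≫ X.fromSpecStalk x := by
    rw [Spec.map_comp, Category.assoc, h1, hl, h2]
  have h4 : Spec.map (φ ≫ CommRingCat.ofHom (algebraMap O X.functionField)) =
      Spec.map (X.presheaf.stalkSpecializes hspec) := (cancel_mono _).mp h3
  have h5 : φ ≫ CommRingCat.ofHom (algebraMap O X.functionField) =
      X.presheaf.stalkSpecializes hspec := Spec.map_injective h4
  intro f
  have h6 : algebraMap (X.presheaf.stalk x) X.functionField f =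
      (X.presheaf.stalkSpecializes hspec).hom f := rfl
  rw [h6, ← h5]
  exact (φ.hom f).2

/-- **CENTER**: on an integral scheme proper (universally closed suffices) over a field, every
valuation subring of the function field containing the constants contains the local ring of
some point. -/
theorem exists_center {K : Type u} [Field K] (X : Scheme.{u}) [IsIntegral X]
    (str : X ⟶ Spec (CommRingCat.of K)) [UniversallyClosed str]
    (O : ValuationSubring X.functionField)
    (hO : ∀ a : K, ((Scheme.ΓSpecIso (CommRingCat.of K)).inv ≫ str.appTop ≫
      X.presheaf.germ ⊤ (genericPoint X) (Opens.mem_top _)).hom a ∈ O) :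
    ∃ x : X, ∀ f : X.presheaf.stalk x,
      algebraMap (X.presheaf.stalk x) X.functionField f ∈ O := by
  -- the structure map `K → K(X)` and its factorisation through `O`
  let s : CommRingCat.of K ⟶ X.functionField :=
    (Scheme.ΓSpecIso (CommRingCat.of K)).inv ≫ str.appTop ≫
      X.presheaf.germ ⊤ (genericPoint X) (Opens.mem_top _)
  let s₀ : K →+* O := s.hom.codRestrict O.toSubring hO
  have hs₀ : CommRingCat.ofHom s₀ ≫ CommRingCat.ofHom (algebraMap O X.functionField) = s := by
    ext a
    rfl
  -- the valuative square
  have hsq : X.fromSpecStalk (genericPoint X) ≫ str =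
      Spec.map (CommRingCat.ofHom (algebraMap O X.functionField)) ≫
        Spec.map (CommRingCat.ofHom s₀) := by
    rw [← Spec.map_comp, hs₀]
    apply ext_to_Spec
    show (Scheme.ΓSpecIso (CommRingCat.of K)).inv ≫
        (X.fromSpecStalk (genericPoint X) ≫ str).appTop =
      (Scheme.ΓSpecIso (CommRingCat.of K)).inv ≫ (Spec.map s).appTop
    rw [← Scheme.ΓSpecIso_inv_naturality, Scheme.Hom.comp_appTop, Scheme.fromSpecStalk_appTop]
    simp [s]
  have hex : ValuativeCriterion.Existence str := by
    have h : (ValuativeCriterion.Existence ⊓ @QuasiCompact) str := by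
      rw [← UniversallyClosed.eq_valuativeCriterion]
      infer_instance
    exact h.1
  let S : ValuativeCommSq str :=
    { R := O
      K := X.functionField
      i₁ := X.fromSpecStalk (genericPoint X)
      i₂ := Spec.map (CommRingCat.ofHom s₀)
      commSq := ⟨hsq⟩ }
  obtain ⟨⟨l, hl₁, -⟩⟩ := hex S
  exact ⟨l (IsLocalRing.closedPoint O), stalk_le_of_lift O l hl₁⟩

end

end Fermat.Agent.S26.Beta.H178
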